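import Mathlib
import Fermat.Agent.LT.T2.H557.CutLevel
import Fermat.Agent.LT.T7.Q797.BaseCutSpec

/-!
# Row LT, tower T7, node T7.L2.1.H2a `BaseC` (cut of helper797): LEAF BC.1 `ExpC797` -- PROVED

OFF-MAIN (helper253, spare).  No hole, nothing assumed, no new definition.  ADDITIVE (new names
only, suffix `253`).  Spec: `LT/T7/Q797/BaseCutSpec.lean` (helper797, sha256 e87d7ea9), byte-identical
copy; asset `LT/T2/H557/CutLevel.lean` (helper557, closed tower T2): `idealClosure_ball557`.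

    expC253 (K K') : Q797.ExpC797 K K'

`exists_isLevelOf253` : every non-zero ideal of the ring of integers of a number field has
exponents (`H893.IsLevelOf893`): the closure of `𝔞 ≠ 0` in `K_v` is a ball of radius
`exp (- m v)`.  `T₀` = the finite set of the prime divisors of `𝔫` (`Ideal.finite_factors`).
-/

set_option autoImplicit false
set_option linter.unusedSectionVars false

open AutomorphicForm IsDedekindDomain NumberField

noncomputable section

namespace Fermat.Agent.LT.T7.H253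

open Fermat.Agent.LT.H556 Fermat.Agent.LT.H556.A0 Fermat.Agent.LT.T7
open Fermat.Agent.LT.T7.H893 Fermat.Agent.LT.T7.Q797

/-- A non-zero ideal has exponents. -/
theorem exists_isLevelOf253 {F : Type} [Field F] [NumberField F] (𝔞 : Ideal (𝓞 F))
    (h𝔞 : 𝔞 ≠ ⊥) : ∃ m : HeightOneSpectrum (𝓞 F) → ℕ, IsLevelOf893 𝔞 m := by
  choose m hm using fun v : HeightOneSpectrum (𝓞 F) =>
    Fermat.Agent.LT.T2.H557.idealClosure_ball557 𝔞 h𝔞 v
  exact ⟨m, fun v x => (hm v).1 x⟩

variable (K K' : Type) [Field K] [NumberField K] [Field K'] [NumberField K'] [Algebra K K']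

/-- The extension of a non-zero ideal is non-zero. -/
theorem upI_ne_bot253 {𝔫 : Ideal (𝓞 K)} (h : 𝔫 ≠ ⊥) : upI (K' := K') 𝔫 ≠ ⊥ := by
  intro h0
  apply h
  have hinj : Function.Injective (algebraMap (𝓞 K) (𝓞 K')) :=
    FaithfulSMul.algebraMap_injective (𝓞 K) (𝓞 K')
  exact (Ideal.map_eq_bot_iff_of_injective hinj).1 h0

/-- **LEAF BC.1 `ExpC797`** (verbatim, unconditional). -/
theorem expC253 : ExpC797 K K' := by
  classical
  intro ℓ Φ B hB 𝔫 h𝔫
  have h1 : 𝔫 ≠ ⊥ := h𝔫.level_ne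
  have h2 : upI (K' := K') 𝔫 ≠ ⊥ := upI_ne_bot253 K K' h1
  have h3 : B.𝔑₀ ≠ ⊥ := by
    obtain ⟨𝔫₀, h0, heq, -, -⟩ := hB.base_level
    rw [heq]
    exact upI_ne_bot253 K K' h0
  obtain ⟨m, hm⟩ := exists_isLevelOf253 𝔫 h1
  obtain ⟨n, hn⟩ := exists_isLevelOf253 (upI (K' := K') 𝔫) h2
  obtain ⟨n₀, hn₀⟩ := exists_isLevelOf253 B.𝔑₀ h3
  have hfin : {v : HeightOneSpectrum (𝓞 K) | v.asIdeal ∣ 𝔫}.Finite :=
    Ideal.finite_factors h1
  exact ⟨hfin.toFinset, n, n₀, m,
    { mem_T₀ := fun v => by rw [Set.Finite.mem_toFinset]; rfl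
      lev_m := hm
      lev_n := hn
      lev_n₀ := hn₀ }⟩

end Fermat.Agent.LT.T7.H253

end
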