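import Mathlib
import Fermat.Agent.LT.H129.HeckeExists
import Fermat.Agent.LT.T7.H83.IwKit
import Fermat.Agent.LT.T7.H593.DblSys
import Fermat.Agent.LT.T7.Q797.BaseCutSpec
import Fermat.Agent.LT.T7.H253.ExpC

/-!
# Row LT, tower T7, node T7.L2.1.H2a `BaseC` (cut of helper797): LEAF BC.2 `CosetC797` -- PROVED

OFF-MAIN (helper253, spare).  No hole, nothing assumed, no new definition.  ADDITIVE (new names
only, suffix `253`).  Spec: `LT/T7/Q797/BaseCutSpec.lean` (helper797, sha256 e87d7ea9), byte-identical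
copy.  Closed assets (byte-identical copies): `exists_isDblCosetSystem593` (helper593,
`T7/H593/DblSys.lean`), `exists_isIwCosetSystem83` (helper83, `T7/H83/IwKit.lean`),
`exists_scalarUniformizer129` (helper129, `H129/HeckeExists.lean`).

    cosetC253 (K K') : Q797.CosetC797 K K'
-/

set_option autoImplicit false
set_option linter.unusedSectionVars false

open AutomorphicForm IsDedekindDomain NumberField

noncomputable section

namespace Fermat.Agent.LT.T7.H253

open Fermat.Agent.LT.H556 Fermat.Agent.LT.H556.A0 Fermat.Agent.LT.T7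
open Fermat.Agent.LT.T7.H893 Fermat.Agent.LT.T7.Q797

variable (K K' : Type) [Field K] [NumberField K] [Field K'] [NumberField K'] [Algebra K K']

/-- **LEAF BC.2 `CosetC797`** (verbatim, unconditional). -/
theorem cosetC253 : CosetC797 K K' := by
  intro ℓ Φ B hB g _
  have h3 : B.𝔑₀ ≠ ⊥ := by
    obtain ⟨𝔫₀, h0, heq, -, -⟩ := hB.base_level
    rw [heq]
    exact upI_ne_bot253 K K' h0
  obtain ⟨Hg, hHg⟩ := Fermat.Agent.LT.T7.H593DS.exists_isDblCosetSystem593 B.𝔑₀ h3 g
  obtain ⟨H', hH'⟩ := Fermat.Agent.LT.T7.H83.exists_isIwCosetSystem83 (B.o 0)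
  obtain ⟨z', hz'⟩ := Fermat.Agent.LT.H129.exists_scalarUniformizer129 (B.o 0)
  obtain ⟨H, hH⟩ := Fermat.Agent.LT.T7.H83.exists_isIwCosetSystem83 B.u
  obtain ⟨z, hz⟩ := Fermat.Agent.LT.H129.exists_scalarUniformizer129 B.u
  exact ⟨Hg, H', z', H, z, ⟨hHg, hH', hz', hH, hz⟩⟩

end Fermat.Agent.LT.T7.H253

end
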