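import Mathlib
import Fermat.Agent.LT.T7.H305.MatchSpec

/-!
# Row LT, tower T7, leaf T7.L2.1.C2.4 `IotaC305` [XL]: A CUT (helper253, spare), OFF-MAIN

Definitions, frozen Props and the PROVED top.  No hole, nothing assumed.  ADDITIVE (new names
only, suffix `253`).  Vocabulary: `LT/T7/H305/MatchSpec.lean` (helper305@61757801e, sha256
541c6ac7fb6d040e, byte-identical copy) and its imports.

    iotaC_of_leaves253 : SigmaLocC305 K' → IotaLocC253 K K' → IotaNormC253 K K' →
        IotaFixedC253 K K' → IotaOntoC253 K K' → IotaEmbC253 K K' → IotaClosedC253 K K' →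
        IotaC305 K K'

## The cut

`IsIotaLoc253 ι` = the four fields `cont`, `rat`, `fin`, `inf` of `IsAdeleBase305` (they do not
mention `σ`): `ι` is continuous, compatible with `K → K'`, and LOCAL: at a finite place `w ∣ v`
it is a ring homomorphism `i : K_v → K'_w` over `K → K'` with `|i x|_w = |x|_v ^ e`, `e > 0`; at
an infinite place `w'` it is the identity or the conjugation of `ℂ` in the coordinates of
`T5.infHom`.

* **`IotaLocC253`** (the CONSTRUCTION): such a `ι` exists.  `RestrictedProduct.mapAlongRingHom`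
  along `w ↦ w ∩ 𝓞_K` with `T6.H267.locIncl` (closed, `LT/T6/H267/InstExt.lean`:
  `locIncl_algebraMap`, `valued_locIncl`, `continuous_locIncl`), `mapAlong_continuous`; at
  infinity Mathlib's `InfinitePlace.Completion` maps (`LiesOverInstances.lean`).
* ALL THE OTHER LEAVES ARE STATEMENTS ABOUT AN ARBITRARY LOCAL `ι` (independent of the
  construction, they can be proved in parallel):
* **`IotaNormC253`** : `‖ι x‖ = ‖x‖ ^ l` on the ideles.  `e` is the ramification index
  (`i` is the identity on `K`: apply `val_i` to a uniformiser of `v` in `K` and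
  `HeightOneSpectrum.valuation_liesOver`), `N w = (N v) ^ f`, `∑_{w ∣ v} e f = l`
  (`Ideal.sum_ramification_inertia`); every infinite place of `K` is complex and has `l` places
  over it (`InfinitePlace` ramification, Mathlib `Completion/Ramification.lean`).
* **`IotaFixedC253`** : `σ_𝔸 (ι x) = ι x`, from `SigmaLocC305 K'`.  Finite places: `s_w ∘ i_w` and
  `i_{σ w}` are continuous ring homomorphisms `K_v → K'_{σ w}` which agree on the dense subfield
  `K`.  Infinite places: `a ↦ infHom w' (σ_𝔸 (ι a))` and `a ↦ infHom w' (ι a)` are both of the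
  form `c ∘ infHom v`, `c ∈ {id, conj}` (uniformly in `a`), and agree on `K`; `v` is COMPLEX, so
  some `x ∈ K` has a non-real image and `c` is determined.
* **`IotaOntoC253`** : a `σ_𝔸`-fixed adele is in the image, from `SigmaLocC305 K'`.  At a place
  `w` with `σ w = w` (then `w` is the only place over `v`): the fixed field of `s_w` is `i (K_v)`
  (`T6.H267.fixed_mem_range`; `s_w` and `i` are THE continuous extensions).  At a place with
  `σ w ≠ w`: `v` splits completely (`l` prime), `e = f = 1`, `i_w` is bijective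
  (`T6.H116.instSplitC_h116`), `y_{σ w} = s_w (y_w)` gives `i_{σ w}⁻¹ y_{σ w} = i_w⁻¹ y_w`, and
  `⟨σ⟩` is transitive on the places over `v`.  Integrality of `x_v` for almost all `v` from
  `val_i`.  Infinite places: all split (complex), as in the split case.
* **`IotaEmbC253`** : a local `ι` is a topological embedding (injective: every place of `K` has a
  place of `K'` over it and a ring homomorphism of fields is injective; inducing:
  `|x|_v = |i x|_w ^ (1/e)`, neighbourhoods of `0` of the restricted product).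
* **`IotaClosedC253`** : the fixed points of `σ_𝔸` are closed (`isClosed_eq`, `𝔸_{K'}` is
  Hausdorff), so the image of `ι` is closed.

FALSITY CHECKS (helper253): every leaf is a true statement for every local `ι`: the exponent `e`
of `fin` is forced (`= e(w ∣ v)`), the homomorphism `i` is forced (continuous, given on the dense
`K`), the sign at an infinite place is forced by `rat` (all places complex).  `IotaLocC253` keeps
the hypothesis `TotCplx K` (not needed, harmless).
-/

set_option autoImplicit false

open AutomorphicForm IsDedekindDomain NumberField MeasureTheory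
open scoped ComplexConjugate

noncomputable section

namespace Fermat.Agent.LT.T7.H253

open Fermat.Agent.LT.H556 Fermat.Agent.LT.H556.A0 Fermat.Agent.LT.T7 Fermat.Agent.LT.T7.H305

variable {K K' : Type} [Field K] [NumberField K] [Field K'] [NumberField K'] [Algebra K K']

/-- `ι : 𝔸_K → 𝔸_{K'}` is LOCAL: the fields `cont`, `rat`, `fin`, `inf` of `IsAdeleBase305`. -/
structure IsIotaLoc253 (ι : Adl K →+* Adl K') : Prop where
  cont : Continuous ι
  rat : ∀ x : K, ι (algebraMap K (Adl K) x) = algebraMap K' (Adl K') (algebraMap K K' x)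
  fin : ∀ (v : HeightOneSpectrum (𝓞 K)) (w : HeightOneSpectrum (𝓞 K')), PlaceOver K K' v w →
    ∃ (e : ℕ) (i : v.adicCompletion K →+* w.adicCompletion K'), 0 < e ∧
      (∀ x : K, i (algebraMap K (v.adicCompletion K) x)
        = algebraMap K' (w.adicCompletion K') (algebraMap K K' x)) ∧
      (∀ x : v.adicCompletion K, Valued.v (i x) = Valued.v x ^ e) ∧
      ∀ x : Adl K, T5.finHom w (ι x) = i (T5.finHom v x)
  inf : ∀ w' : InfinitePlace K',
    (∀ x : Adl K, T5.infHom w' (ι x) = T5.infHom (w'.comap (algebraMap K K')) x) ∨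
      ∀ x : Adl K, T5.infHom w' (ι x) = conj (T5.infHom (w'.comap (algebraMap K K')) x)

variable (K K')

/-- **LEAF I1 = IOTA-LOC (the construction).** -/
def IotaLocC253 : Prop :=
  TotCplx K → ∃ ι : Adl K →+* Adl K', IsIotaLoc253 ι

/-- **LEAF I2 = IOTA-NORM.** -/
def IotaNormC253 : Prop :=
  ∀ l : ℕ, IsCycExt K K' l → TotCplx K → ∀ ι : Adl K →+* Adl K', IsIotaLoc253 ι →
    ∀ x : (Adl K)ˣ, T5.adNorm (ι (x : Adl K)) = T5.adNorm (x : Adl K) ^ l

/-- **LEAF I3 = IOTA-FIXED.** -/
def IotaFixedC253 : Prop :=
  ∀ D : CompData K K', IsCompData D → IsCycExt K K' D.l → TotCplx K → SigmaLocC305 K' →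
    ∀ ι : Adl K →+* Adl K', IsIotaLoc253 ι → ∀ x : Adl K, D.s.σA (ι x) = ι x

/-- **LEAF I4 = IOTA-ONTO.** -/
def IotaOntoC253 : Prop :=
  ∀ D : CompData K K', IsCompData D → IsCycExt K K' D.l → TotCplx K → SigmaLocC305 K' →
    ∀ ι : Adl K →+* Adl K', IsIotaLoc253 ι →
      ∀ y : Adl K', D.s.σA y = y → ∃ x : Adl K, ι x = y

/-- **LEAF I5 = IOTA-EMB.** -/
def IotaEmbC253 : Prop :=
  TotCplx K → ∀ ι : Adl K →+* Adl K', IsIotaLoc253 ι → Topology.IsEmbedding ι

/-- **LEAF I6 = IOTA-CLOSED.** -/
def IotaClosedC253 : Prop :=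
  ∀ s : T5.AdelicAut K', IsClosed {y : Adl K' | s.σA y = y}

variable {K K'}

/-- **THE TOP: `IotaC305` from the leaves.** -/
theorem iotaC_of_leaves253 (hσ : SigmaLocC305 K') (hloc : IotaLocC253 K K')
    (hnorm : IotaNormC253 K K') (hfix : IotaFixedC253 K K') (honto : IotaOntoC253 K K')
    (hemb : IotaEmbC253 K K') (hcl : IotaClosedC253 K') : IotaC305 K K' := by
  intro D hD hcyc hTC
  obtain ⟨ι, hι⟩ := hloc hTC
  have hfixed : ∀ x : Adl K, D.s.σA (ι x) = ι x := hfix D hD hcyc hTC hσ ι hι
  have hon : ∀ y : Adl K', D.s.σA y = y → ∃ x : Adl K, ι x = y :=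
    honto D hD hcyc hTC hσ ι hι
  have hrange : Set.range ι = {y : Adl K' | D.s.σA y = y} := by
    ext y
    constructor
    · rintro ⟨x, rfl⟩
      exact hfixed x
    · intro hy
      exact hon y hy
  refine ⟨ι, ?_⟩
  exact
    { cont := hι.cont
      closed := ⟨hemb hTC ι hι, by rw [hrange]; exact hcl D.s⟩
      rat := hι.rat
      fixed := hfixed
      onto := hon
      norm := hnorm D.l hcyc hTC ι hι
      fin := hι.fin
      inf := hι.inf }

end Fermat.Agent.LT.T7.H253

end
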